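/-
Programme DS (S48), chapter G-ESRED, brick E06d (helper78): GENERIC TWIN of the proposition
`Fermat.Agent.ES.TOP.SPInputs12.Model` (helper12), with `(M : ℕ) [NeZero M]` replaced by a generator
datum `D : GenData` (`DS/G/ES/RED/Iface`).

`Model n e A D` : **the two-chart model of the curve with function field `ℚ̄·D.FQ` over the place
`A`** for the Hauptmodul base `(n, e)`: a `TwoCharts8.TwoCharts` structure whose charts are
coefficientwise (`GaloisInst21.CoeffChart`, twin), with coordinates `t = tF D hmem` (hence `t⁻¹`), and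
which satisfy (PEEL-a).  It is the deliverable of the chain `E05–E07` (producer: the twin of
`ES/TOP/ModelOfInst12`) and the input of the reduction / Galois / Kronecker instance layers
(twins of `RedInst15.chartInputs_both`, `GaloisInst21.r_smul_*'`, `EsDivFinal24`).
-/
import Mathlib
import Fermat.Agent.DS.G.ES.RED.GaloisInst21
import Fermat.Agent.DS.G.ES.RED.Base79
import Fermat.Agent.ES.RED.TwoCharts8

set_option autoImplicit false
set_option linter.unusedSectionVars false

noncomputable section

open AlgebraicCurve ModularCurve HahnSeries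

namespace Fermat.Agent.DS.G.ES.TOP.ModelDef78

open Fermat.Agent.DS.G.ES.RED.Iface Fermat.Agent.DS.G.ES.RED.Base79
  Fermat.Agent.DS.G.ES.RED.GaloisInst21
  Fermat.Agent.ES.RED.Contract8 Fermat.Agent.ES.RED.TwoCharts8 Fermat.Agent.X0.FF

/-- `ℚbar`. -/
local notation "Qb" => AlgebraicClosure ℚ

/-- **The two-chart model for the datum `D`** over the place `A`, for the Hauptmodul base `(n, e)`:
a `TwoCharts` structure whose charts are coefficientwise with coordinates `t = tF D hmem` (hence
`t⁻¹`) and satisfy (PEEL-a). -/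
def Model (n e : ℕ) [NeZero n] (A : ValuationSubring Qb) (D : GenData) : Prop :=
  ∃ (hmem : TMem n e D) (x : ↥D.Fbar) (hx : IsGen Qb x)
    (T : TwoCharts A hx ↥(D.FC (kA A))),
    CoeffChart (F₀ := D.FQ) T.S0 ∧
    CoeffChart (F₀ := D.FQ) T.S1 ∧
    T.S0.s = tF D hmem ∧
    (∀ (P : Place Qb ↥D.Fbar) (hP : T.S0.InChart P), T.S0.PeelA P hP) ∧
    (∀ (P : Place Qb ↥D.Fbar) (hP : T.S1.InChart P), T.S1.PeelA P hP)

/-- Constructor of `Model` (the existential unpacked). -/
theorem Model.mk' {n e : ℕ} [NeZero n] {A : ValuationSubring Qb} {D : GenData}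
    (hmem : TMem n e D) {x : ↥D.Fbar} {hx : IsGen Qb x} (T : TwoCharts A hx ↥(D.FC (kA A)))
    (c0 : CoeffChart (F₀ := D.FQ) T.S0) (c1 : CoeffChart (F₀ := D.FQ) T.S1)
    (hs0 : T.S0.s = tF D hmem)
    (p0 : ∀ (P : Place Qb ↥D.Fbar) (hP : T.S0.InChart P), T.S0.PeelA P hP)
    (p1 : ∀ (P : Place Qb ↥D.Fbar) (hP : T.S1.InChart P), T.S1.PeelA P hP) :
    Model n e A D :=
  ⟨hmem, x, hx, T, c0, c1, hs0, p0, p1⟩

/-- The old proposition is the instance `D = X0gens M`, up to the identification
`(X0gens M).FC k = modularFunctionFieldFullC k M` (`Iface.X0gens_FC`); we only record the membership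
part here. -/
theorem Model.tMem {n e : ℕ} [NeZero n] {A : ValuationSubring Qb} {D : GenData}
    (h : Model n e A D) : TMem n e D := h.1

end Fermat.Agent.DS.G.ES.TOP.ModelDef78
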