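/-
Programme DS (S48), chapter G-ESRED, brick E06d (helper52, hedge for the `TOP/ModelOfInst12` twin):
generic twin of `ES/TOP/ModelOfInst12` (helper12) for a generator datum `D : GenData`:
**the contract `ModelContract.Model D n e A` (helper93) from the concrete two-chart structure
`ModelInst52.twoCharts`**, and then from the smoothness targets.

* `model_of_levels`    : `Model D n e A` from `hsat0 hsat1` (`LevelSat`) and `hlev0 hlev1` (`HasLevels`);
* `model_of_hasLevels` : the same with `hsat0 hsat1 := LevelSat16.levelSat_t' / levelSat_inv'`;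
* `model_of_eventuallyGood` : from `LevelsMain22.EventuallyGood A D t^{±1}`
  (`TOP/LevelsHyp12.hasLevels_of_coeffChart`);
* `model_of_models`    : from the two-chart models over `A ∩ K` for all large number fields `K`
  (`LevelsMain22.eventuallyGood_of_models`);
* `model_of_targets`   : from helper77's named targets `OffTarget / OverTarget / InfTarget D.FQ n e A cv`
  and `GaussInputs D.FQ A` (`Bridge79.exists_models'`) — **the final producer of the E-chain**;
* `model_of_targets'`  : the same with `hig` derived from `hG` + `hGB2` (`IgusaStepOf`);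
* `model78_of_model`, `model_of_model78` : the two `Model` propositions on main
  (`TOP/ModelDef78.Model n e A D`, `RED/ModelContract.Model D n e A`) are the same.

The standing Igusa-type hypotheses are `hGB2 : GaussUnit25.GB2Step D A`,
`hig : SpecialDegree25.IgusaStep D n e A`, `hirr : Base79.DegIrrStep D A`
(`Bridge79.degIrrStep_of_gaussInputs`).
-/
import Mathlib
import Fermat.Agent.DS.G.ES.RED.ModelInst52
import Fermat.Agent.DS.G.ES.RED.ModelContract
import Fermat.Agent.DS.G.ES.RED.LevelSat16
import Fermat.Agent.DS.G.ES.RED.Bridge79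
import Fermat.Agent.DS.G.ES.TOP.ModelDef78
import Fermat.Agent.DS.G.ES.RED.IgusaStepOf

set_option autoImplicit false
set_option synthInstance.maxHeartbeats 400000
set_option linter.unusedSectionVars false
set_option linter.style.haveILetI false

noncomputable section

open AlgebraicCurve ModularCurve HahnSeries
open scoped MatrixGroups

namespace Fermat.Agent.DS.G.ES.TOP.ModelOf52

open Fermat.Agent.RED.Interface4 Fermat.Agent.RED.BASE.EtaQuot12
  Fermat.Agent.DS.G.ES.RED.Iface Fermat.Agent.DS.G.ES.RED.ModelInst52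
  Fermat.Agent.DS.G.ES.RED.ModelContract Fermat.Agent.DS.G.ES.RED.ChartIntegralA1
  Fermat.Agent.DS.G.ES.RED.LevelSat16 Fermat.Agent.DS.G.ES.RED.LevelsMain22
  Fermat.Agent.DS.G.ES.RED.SpecialGen25 Fermat.Agent.DS.G.ES.RED.SpecialDegree25
  Fermat.Agent.ES.RED.ModelInstGen4 Fermat.Agent.ES.RED.Contract8 Fermat.Agent.X0
  Fermat.Agent.RED.DESC.NumberFieldDVR27 Fermat.Agent.RED.PUR.ChartGeneric22
  Fermat.Agent.RED.CORE.CoreIface24 Fermat.Agent.RED.PUR.GaussGen8
open Fermat.Agent.RED.BASE.Interface12 (TGenBase)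
open Fermat.Agent.DS.G.ES.RED.Base79 (DegIrrStep FKG OvK baseChangeHom)
open Fermat.Agent.DS.G.RED.ModelMain4 (GaussInputs)
open Fermat.Agent.DS.G.RED.ModelTargets4 (OffTarget OverTarget InfTarget)

section Model

variable (D : GenData) (n e : ℕ) [NeZero n] (ℓ : ℕ) [Fact ℓ.Prime]
  (hmem : tq Qbar n e ∈ D.Fbar) (hgen : TGenBase n e) (A : ValuationSubring Qbar)
  (hA : A.LiesOverPrime ℓ) (hGB2 : Fermat.Agent.DS.G.ES.RED.GaussUnit25.GB2Step D A)
  (hig : IgusaStep D n e A)

/-- **`Model D n e A` from the concrete two-chart structure** of `ModelInst52`. -/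
theorem model_of_levels
    (hsat0 : LevelSat A D (tF D n e hmem)) (hsat1 : LevelSat A D (tF D n e hmem)⁻¹)
    (hlev0 : HasLevels (S0 D n e ℓ hmem hgen A hA hGB2 hig hsat0))
    (hlev1 : HasLevels (S1 D n e ℓ hmem hgen A hA hGB2 hig hsat1)) :
    Model D n e A :=
  Model.intro hmem (twoCharts D n e ℓ hmem hgen A hA hGB2 hig hsat0 hsat1 hlev0 hlev1)
    (coeffChart0 D n e ℓ hmem hgen A hA hGB2 hig hsat0)
    (coeffChart1 D n e ℓ hmem hgen A hA hGB2 hig hsat1) rfl
    (peelA0 D n e ℓ hmem hgen A hA hGB2 hig hsat0 hlev0)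
    (peelA1 D n e ℓ hmem hgen A hA hGB2 hig hsat0 hsat1 hlev1)

variable (hirr : DegIrrStep D A)

/-- the same with the saturation hypotheses discharged by `LevelSat16`. -/
theorem model_of_hasLevels
    (hlev0 : HasLevels (S0 D n e ℓ hmem hgen A hA hGB2 hig
      (levelSat_t' A n e ℓ hirr hmem hgen hA)))
    (hlev1 : HasLevels (S1 D n e ℓ hmem hgen A hA hGB2 hig
      (levelSat_inv' A n e ℓ hirr hmem hgen hA))) :
    Model D n e A :=
  model_of_levels D n e ℓ hmem hgen A hA hGB2 hig _ _ hlev0 hlev1

include hgen hA hGB2 hig hirr in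
/-- **`Model D n e A` from good levels at all large number fields** for `t` and `t⁻¹`. -/
theorem model_of_eventuallyGood
    (hgood0 : EventuallyGood A D (tF D n e hmem))
    (hgood1 : EventuallyGood A D (tF D n e hmem)⁻¹) :
    Model D n e A := by
  have c0 := coeffChart0 D n e ℓ hmem hgen A hA hGB2 hig (levelSat_t' A n e ℓ hirr hmem hgen hA)
  have c1 := coeffChart1 D n e ℓ hmem hgen A hA hGB2 hig (levelSat_inv' A n e ℓ hirr hmem hgen hA)
  refine model_of_hasLevels D n e ℓ hmem hgen A hA hGB2 hig hirr ?_ ?_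
  · exact Fermat.Agent.DS.G.ES.TOP.LevelsHyp12.hasLevels_of_coeffChart _ c0.mem_iff
      c0.exists_series c0.red_eq n e ℓ hirr hmem hgen hA (Or.inl rfl) hgood0
  · exact Fermat.Agent.DS.G.ES.TOP.LevelsHyp12.hasLevels_of_coeffChart _ c1.mem_iff
      c1.exists_series c1.red_eq n e ℓ hirr hmem hgen hA (Or.inr rfl) hgood1

include hgen hA hGB2 hig hirr in
/-- **`Model D n e A` from the two-chart models over `A ∩ K`** for all large number fields `K`
(the output of `TOP/LevelsHyp12.exists_models`, `TOP/ExistsModels78.exists_models`,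
`Bridge79.exists_models'`). -/
theorem model_of_models
    (h : ∃ K₀ : IntermediateField ℚ Qbar, FiniteDimensional ℚ K₀ ∧
      ∀ K : IntermediateField ℚ Qbar, FiniteDimensional ℚ K → K₀ ≤ K →
        ∃ (ϖ : ↥(AK A K)) (hu : IsUnif (AK A K) ϖ) (t : ↥(FKG D K)),
          baseChangeHom D K t = tF D n e hmem ∧
          TwoChartModel ↥(AK A K) ↥K ↥(FKG D K) ϖ t (chart ↥(AK A K) t) (chart ↥(AK A K) t⁻¹)
            (OvK D A K hu)) :
    Model D n e A := by
  obtain ⟨hg0, hg1⟩ := eventuallyGood_of_models A D (tF D n e hmem) h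
  exact model_of_eventuallyGood D n e ℓ hmem hgen A hA hGB2 hig hirr hg0 hg1

include hmem hgen hA hGB2 hig in
/-- **The final producer of the E-chain**: `Model D n e A` from helper77's named smoothness targets
and the Gauss inputs. -/
theorem model_of_targets (hG : GaussInputs D.FQ A) (cv : SL(2, ℤ) → Option Kbar)
    (hoff : OffTarget D.FQ n e A cv) (hover : OverTarget D.FQ n e A cv)
    (hinf : InfTarget D.FQ n e A) :
    Model D n e A :=
  model_of_models D n e ℓ hmem hgen A hA hGB2 hig
    (Fermat.Agent.DS.G.ES.RED.Bridge79.degIrrStep_of_gaussInputs hG)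
    (Fermat.Agent.DS.G.ES.RED.Bridge79.exists_models' hG hA cv hmem hgen hoff hover hinf)

include hmem hgen hA hGB2 in
/-- the same with `hig : IgusaStep D n e A` derived from `GaussInputs` + (GB2)
(`IgusaStepOf.igusaStep_of_gaussInputs`): **the only inputs are the chapter outputs IGU (`hG`), GB2
(`hGB2`), BASE (`hmem`, `hgen`) and MODEL (`hoff`, `hover`, `hinf`).** -/
theorem model_of_targets' (hG : GaussInputs D.FQ A) (cv : SL(2, ℤ) → Option Kbar)
    (hoff : OffTarget D.FQ n e A cv) (hover : OverTarget D.FQ n e A cv)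
    (hinf : InfTarget D.FQ n e A) :
    Model D n e A :=
  model_of_targets D n e ℓ hmem hgen A hA hGB2
    (Fermat.Agent.DS.G.ES.RED.IgusaStepOf.igusaStep_of_gaussInputs D n e ℓ A hA hmem hgen hG hGB2)
    hG cv hoff hover hinf

end Model

section Bridge

variable {D : GenData} {n e : ℕ} [NeZero n] {A : ValuationSubring Qbar}

/-- helper78's `ModelDef78.Model n e A D` from helper93's `ModelContract.Model D n e A`. -/
theorem model78_of_model (h : Model D n e A) :
    Fermat.Agent.DS.G.ES.TOP.ModelDef78.Model n e A D := by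
  obtain ⟨hmem, x, hx, T, c0, c1, hs0, p0, p1⟩ := h
  exact ⟨hmem, x, hx, T, c0, c1, hs0, p0, p1⟩

/-- helper93's `ModelContract.Model D n e A` from helper78's `ModelDef78.Model n e A D`. -/
theorem model_of_model78 (h : Fermat.Agent.DS.G.ES.TOP.ModelDef78.Model n e A D) :
    Model D n e A := by
  obtain ⟨hmem, x, hx, T, c0, c1, hs0, p0, p1⟩ := h
  exact ⟨hmem, x, hx, T, c0, c1, hs0, p0, p1⟩

end Bridge

end Fermat.Agent.DS.G.ES.TOP.ModelOf52
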