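/-
Programme DS (S48), chapter G-ESRED, brick E06d (helper78): GENERIC TWIN of the section `Models`
of `Fermat/Agent/ES/TOP/LevelsHyp12.lean` (helper12), with `(M : ℕ) [NeZero M]` replaced by a
generator datum `D : GenData` (`DS/G/ES/RED/Iface`).

* `exists_models` : **the two-chart models over `A ∩ K`** for all large number fields `K`, in the
  shape consumed by the twin of `LevelsMain22.eventuallyGood_of_models`:
  `∃ ϖ hu t, baseChangeHom D K t = tF D hmem ∧ TwoChartModel … (chart t) (chart t⁻¹) (OvK D A K hu)`,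
  from `ModelExplicit26.explicitModelStep_of_targets` (helper79's twin) with
  - `hmem : TMem n e D`                         (the Hauptmodul lies in `ℚ̄·D.FQ`; (T1) is derived),
  - `hirr : DegIrrStep D A`                     (Igusa input, chapter IGU),
  - `hJ : JTarget n e`                          (level-free; `RED/ModelFinal4.jTarget`),
  - `hoff / hover / hinf`                       (the PUR / CUSP targets in helper77's form
    `DS/G/RED/ModelTargets4.OffTarget D.FQ n e A cv`, …).
-/
import Mathlib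
import Fermat.Agent.DS.G.ES.RED.ModelExplicit26
import Fermat.Agent.DS.G.RED.ModelTargets4

set_option autoImplicit false
set_option linter.unusedSectionVars false
set_option linter.style.haveILetI false

noncomputable section

open AlgebraicCurve ModularCurve HahnSeries
open scoped MatrixGroups

namespace Fermat.Agent.DS.G.ES.TOP.ExistsModels78

open Fermat.Agent.DS.G.ES.RED.Iface Fermat.Agent.DS.G.ES.RED.Base79
open Fermat.Agent.RED.Interface4 (Qbar AK)
open Fermat.Agent.RED.DESC.NumberFieldDVR27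
open Fermat.Agent.RED.PUR.ChartGeneric22 Fermat.Agent.RED.NumInst4 Fermat.Agent.RED.PUR.GaussGen8
  Fermat.Agent.RED.CORE.CoreIface24 Fermat.Agent.X0
open Fermat.Agent.RED.ModelTargets4 (JTarget)

section Models

variable {n e : ℕ} [NeZero n] (D : GenData) (hmem : TMem n e D)
  (ℓ : ℕ) [Fact ℓ.Prime] (A : ValuationSubring Qbar) (hA : A.LiesOverPrime ℓ)

include hA in
/-- **The two-chart models over `A ∩ K`** for all large number fields `K`, in the shape of the twin
of `LevelsMain22.eventuallyGood_of_models`. -/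
theorem exists_models (hirr : DegIrrStep D A) (cv : SL(2, ℤ) → Option Kbar)
    (hJ : JTarget n e)
    (hoff : Fermat.Agent.DS.G.RED.ModelTargets4.OffTarget D.FQ n e A cv)
    (hover : Fermat.Agent.DS.G.RED.ModelTargets4.OverTarget D.FQ n e A cv)
    (hinf : Fermat.Agent.DS.G.RED.ModelTargets4.InfTarget D.FQ n e A) :
    ∃ K₀ : IntermediateField ℚ Qbar, FiniteDimensional ℚ K₀ ∧
      ∀ K : IntermediateField ℚ Qbar, FiniteDimensional ℚ K → K₀ ≤ K →
        ∃ (ϖ : ↥(AK A K)) (hu : IsUnif (AK A K) ϖ) (t : ↥(FKG D K)),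
          baseChangeHom D K t = tF D hmem ∧
          TwoChartModel ↥(AK A K) ↥K ↥(FKG D K) ϖ t (chart ↥(AK A K) t) (chart ↥(AK A K) t⁻¹)
            (OvK D A K hu) := by
  obtain ⟨K₁, hfd₁, hT'⟩ := exists_tq_mem n e D hmem
  have hT : ∃ K₁ : IntermediateField ℚ Qbar, FiniteDimensional ℚ K₁ ∧
      ∀ K : IntermediateField ℚ Qbar, FiniteDimensional ℚ K → K₁ ≤ K →
        Fermat.Agent.RED.BASE.EtaQuot12.tq ↥K n e ∈ FKG D K :=
    ⟨K₁, hfd₁, fun K _ hle => hT' K hle⟩
  obtain ⟨K₀, hfd₀, H⟩ :=
    Fermat.Agent.DS.G.ES.RED.ModelExplicit26.explicitModelStep_of_targets (n := n) (e := e)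
      (D := D) (A := A) (ℓ := ℓ) hirr hA cv hT hJ hoff hover hinf
  haveI := hfd₀
  haveI := hfd₁
  refine ⟨K₀ ⊔ K₁, inferInstance, fun K hK hle => ?_⟩
  obtain ⟨hdvr, Hm⟩ := H K hK (le_sup_left.trans hle)
  haveI := hdvr
  obtain ⟨ϖ, hϖ⟩ := IsDiscreteValuationRing.exists_irreducible ↥(AK A K)
  have hu : IsUnif (AK A K) ϖ := isUnif_of_irreducible (AK A K) hϖ
  refine ⟨ϖ, hu, ⟨Fermat.Agent.RED.BASE.EtaQuot12.tq ↥K n e, hT' K (le_sup_right.trans hle)⟩,
    ?_, ?_⟩
  · exact baseChangeHom_eq_tF D K hmem _ rfl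
  · exact Hm ϖ hϖ hu _ rfl

end Models

end Fermat.Agent.DS.G.ES.TOP.ExistsModels78
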