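/-
Programme DS (S48), chapter G-ESRED, brick E06 (helper79): GENERIC TWIN of the level-system part of
`Fermat/Agent/ES/TOP/LevelsHyp12.lean` (helper12), with `(M : ℕ) [NeZero M]` replaced by a generator
datum `D : GenData` (`DS/G/ES/RED/Iface`).  Same theorem names where the statement survives.

The level systems (`ModelInstGen4.HasLevels`) of a coefficientwise chart with coordinate `t^{±1}`
(`t` the Hauptmodul of `X₀(n)`, `(n, e) = (4, 8)` or `(9, 3)`), through `LevelsMain22.chartLevels`: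

* `exists_models` : the two-chart models over `A ∩ K` for all large number fields `K`, in the shape
  consumed by `LevelsMain22.eventuallyGood_of_models`, from the smoothness targets (unfolded bodies of
  `ModelTargets4.OffTarget / OverTarget / InfTarget` at `FKG D K`) and the Igusa input `DegIrrStep D A`
  (`ModelExplicit26.explicitModelStep_of_targets`);
* `redCompat_of_coeffChart` : `LevelsInst22.RedCompat S` from the fields `exists_series`, `red_eq` of
  `GaloisInst21.CoeffChart S`;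
* `hasLevels_of_coeffChart` : `HasLevels S` for a coefficientwise chart with coordinate `t^{±1}`
  (hypotheses = the fields `mem_iff`, `exists_series`, `red_eq` of `GaloisInst21.CoeffChart S`, UNFOLDED,
  so that this file does not wait for the twin of `GaloisInst21`).
-/
import Mathlib
import Fermat.Agent.ES.RED.ModelInstGen4
import Fermat.Agent.DS.G.ES.RED.LevelsMain22
import Fermat.Agent.DS.G.ES.RED.ModelExplicit26
import Fermat.Agent.DS.G.ES.RED.L4Inst16

set_option autoImplicit false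
set_option synthInstance.maxHeartbeats 400000
set_option linter.unusedSectionVars false
set_option linter.style.haveILetI false

noncomputable section

open AlgebraicCurve ModularCurve HahnSeries
open scoped MatrixGroups

namespace Fermat.Agent.DS.G.ES.TOP.LevelsHyp12

open Fermat.Agent.DS.G.ES.RED.Iface Fermat.Agent.DS.G.ES.RED.Base79
open Fermat.Agent.RED.Interface4
  Fermat.Agent.RED.BASE.EtaQuot12
  Fermat.Agent.ES.RED.ModelInstGen4
  Fermat.Agent.ES.RED.Contract8 Fermat.Agent.ES.RED.LevelContract22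
  Fermat.Agent.DS.G.ES.RED.LevelsInst22 Fermat.Agent.DS.G.ES.RED.LevelsMain22
  Fermat.Agent.X0 Fermat.Agent.X0.FF
  Fermat.Agent.RED.DESC Fermat.Agent.RED.DESC.NumberFieldDVR27
  Fermat.Agent.RED.PUR.ChartGeneric22 Fermat.Agent.RED.NumInst4 Fermat.Agent.RED.PUR.GaussGen8
  Fermat.Agent.RED.CORE.CoreIface24
  Fermat.Agent.RED.ModelTargets4 Fermat.Agent.RED.ModelIface4
open Fermat.Agent.RED.BASE.Interface12 (TGenBase)

attribute [local instance] Fermat.Agent.DS.G.ES.RED.LevelsInst22.algebraAKFK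

section Models

variable {n e : ℕ} [NeZero n] (D : GenData)
  (ℓ : ℕ) [Fact ℓ.Prime] (A : ValuationSubring Qbar) (hA : A.LiesOverPrime ℓ)

include hA in
/-- **The two-chart models over `A ∩ K`** for all large number fields `K`, in the shape of
`LevelsMain22.eventuallyGood_of_models`. -/
theorem exists_models (hirr : DegIrrStep D A) (hmem : TMem n e D) (hgen : TGenBase n e)
    (cv : SL(2, ℤ) → Option Kbar)
    (hoff : ∃ K₀ : IntermediateField ℚ Qbar, FiniteDimensional ℚ K₀ ∧
      ∀ K : IntermediateField ℚ Qbar, FiniteDimensional ℚ K → K₀ ≤ K →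
        ∀ ϖ : ↥(AK A K), Irreducible ϖ →
          ∀ t : ↥(FKG D K), (t : LaurentSeries ↥K) = tq ↥K n e →
            SmoothOff (AK A K) (FKG D K) ϖ t (cuspSet A K cv))
    (hover : ∃ K₀ : IntermediateField ℚ Qbar, FiniteDimensional ℚ K₀ ∧
      ∀ K : IntermediateField ℚ Qbar, FiniteDimensional ℚ K → K₀ ≤ K →
        ∀ ϖ : ↥(AK A K), Irreducible ϖ →
          ∀ t : ↥(FKG D K), (t : LaurentSeries ↥K) = tq ↥K n e →
            ∀ c ∈ cuspSet A K cv, SmoothOver (AK A K) (FKG D K) ϖ t c)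
    (hinf : ∃ K₀ : IntermediateField ℚ Qbar, FiniteDimensional ℚ K₀ ∧
      ∀ K : IntermediateField ℚ Qbar, FiniteDimensional ℚ K → K₀ ≤ K →
        ∀ ϖ : ↥(AK A K), Irreducible ϖ →
          ∀ t : ↥(FKG D K), (t : LaurentSeries ↥K) = tq ↥K n e →
            SmoothOver (AK A K) (FKG D K) ϖ t⁻¹ 0) :
    ∃ K₀ : IntermediateField ℚ Qbar, FiniteDimensional ℚ K₀ ∧
      ∀ K : IntermediateField ℚ Qbar, FiniteDimensional ℚ K → K₀ ≤ K →
        ∃ (ϖ : ↥(AK A K)) (hu : IsUnif (AK A K) ϖ) (t : ↥(FKG D K)),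
          baseChangeHom D K t = tF D hmem ∧
          TwoChartModel ↥(AK A K) ↥K ↥(FKG D K) ϖ t (chart ↥(AK A K) t) (chart ↥(AK A K) t⁻¹)
            (OvK D A K hu) := by
  obtain ⟨K₁, hfd₁, hT'⟩ := exists_tq_mem n e D hmem
  have hT : ∃ K₁ : IntermediateField ℚ Qbar, FiniteDimensional ℚ K₁ ∧
      ∀ K : IntermediateField ℚ Qbar, FiniteDimensional ℚ K → K₁ ≤ K → tq ↥K n e ∈ FKG D K :=
    ⟨K₁, hfd₁, fun K _ hK => hT' K hK⟩
  have hJ : JTarget n e := by
    obtain ⟨K₂, hK₂, hJ⟩ := Fermat.Agent.RED.BASE.JInKt25.exists_j_mem_adjoin n e hgen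
    exact ⟨K₂, hK₂, fun K _ hle => hJ K hle⟩
  obtain ⟨K₀, hfd₀, H⟩ := Fermat.Agent.DS.G.ES.RED.ModelExplicit26.explicitModelStep_of_targets
    (n := n) (e := e) hirr hA cv hT hJ hoff hover hinf
  haveI := hfd₀
  haveI := hfd₁
  refine ⟨K₀ ⊔ K₁, inferInstance, fun K hK hle => ?_⟩
  obtain ⟨hdvr, Hm⟩ := H K hK (le_sup_left.trans hle)
  haveI := hdvr
  obtain ⟨ϖ, hϖ⟩ := IsDiscreteValuationRing.exists_irreducible ↥(AK A K)
  have hu : IsUnif (AK A K) ϖ := isUnif_of_irreducible (AK A K) hϖ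
  refine ⟨ϖ, hu, ⟨tq ↥K n e, hT' K (le_sup_right.trans hle)⟩, ?_, ?_⟩
  · exact baseChangeHom_eq_tF D K hmem _ rfl
  · exact Hm ϖ hϖ hu _ rfl

end Models

section Chart

variable {A : ValuationSubring Qbar} {D : GenData} {x : ↥D.Fbar} {hx : IsGen Qbar x}
  (S : ChartSpec A hx ↥(D.FC (kA A)))

/-- `RedCompat` from the fields `exists_series`, `red_eq` of `CoeffChart`. -/
theorem redCompat_of_coeffChart
    (hseries : ∀ b : ↥S.B, ∃ Y : LaurentSeries ↥A,
      coeffMap A.subtype Y = ((b : ↥D.Fbar) : LaurentSeries Qbar))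
    (hred : ∀ (b : ↥S.B) (Y : LaurentSeries ↥A),
      coeffMap A.subtype Y = ((b : ↥D.Fbar) : LaurentSeries Qbar) →
      ((S.red b : ↥(D.FC (kA A))) : LaurentSeries (kA A)) = coeffMap (resA A) Y) :
    RedCompat S := fun b => by
  obtain ⟨Y, hY⟩ := hseries b
  exact ⟨Y, hY, hred b Y hY⟩

/-- **`HasLevels S`** for a coefficientwise chart with coordinate `t^{±1}`, given good levels at all
large number fields. -/
theorem hasLevels_of_coeffChart
    (hmem_iff : ∀ b : ↥D.Fbar, b ∈ S.B ↔ b ∈ chart ↥A S.s)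
    (hseries : ∀ b : ↥S.B, ∃ Y : LaurentSeries ↥A,
      coeffMap A.subtype Y = ((b : ↥D.Fbar) : LaurentSeries Qbar))
    (hred : ∀ (b : ↥S.B) (Y : LaurentSeries ↥A),
      coeffMap A.subtype Y = ((b : ↥D.Fbar) : LaurentSeries Qbar) →
      ((S.red b : ↥(D.FC (kA A))) : LaurentSeries (kA A)) = coeffMap (resA A) Y)
    (n e : ℕ) [NeZero n] (ℓ : ℕ) [Fact ℓ.Prime] (hirr : DegIrrStep D A)
    (hmem : TMem n e D) (hgen : TGenBase n e) (hA : A.LiesOverPrime ℓ)
    (hs : S.s = tF D hmem ∨ S.s = (tF D hmem)⁻¹) (hgood : EventuallyGood A D S.s) :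
    HasLevels S := by
  intro P hP
  have hℓ : ℓ ≠ 0 := (Fact.out : ℓ.Prime).ne_zero
  exact ⟨Levels S, Bk S, fun i => inferInstance, levelHom S (fun b h => (hmem_iff b).2 h), pik S,
    chartLevels hℓ hA hmem_iff (redCompat_of_coeffChart S hseries hred)
      (Fermat.Agent.DS.G.ES.RED.L4Inst16.chartLevels_L4 S (fun b hb => (hmem_iff b).mpr hb) hred
        n e ℓ hirr hmem hgen hA hs)
      hgood P hP⟩

end Chart

end Fermat.Agent.DS.G.ES.TOP.LevelsHyp12
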