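/-
DS programme (S48), GEO half, brick GEO-FIN-TG, ABSTRACT CORE (helper93): twin of
`ES/TOP/PhiOneTwo21` + `ES/RED/GaloisRed21` (equivariance section) + `ES/TOP/TorsionGalois12`,
WITHOUT `levelPullback` and WITH the diamond operator, for ARBITRARY function fields.

* `PlaceMap r` : a map `r` of places `(K, F) → (k, Fk)` preserving degrees and principal divisors;
  `redPic0 r h : Pic0 K F →+ Pic0 k Fk` (shape of the Prelude `reductionPic0Along`), `redPic0_mk`;
* `redPic0_smul` : `r (g • P) = h • r P` for all places ⟹ `red (g • x) = h • red x`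
  (`g`, `h` semilinear automorphisms up- and downstairs); `redPic0_smul_of_fixed`;
* `redPic0_corr` : the `Pic⁰` passage of (ES-div) with a pair `(Fr, W)`:
  `r_* (T D) = Fr_* r_* D + l · W_* r_* D` on divisors ⟹ `red (T z) = Fr • red z + l • (W • red z)`;
* `inertia_smul_eq_core`, `frobenius_relation_core` : for `J = Pic⁰(ℚ̄ ⊗ F₀)` with the arithmetic Galois
  action: inertia acts trivially on the torsion prime to `p`, and
  `σ • σ • x - T (σ • x) + p • (d • x) = 0` for Frobenius lifts `σ`, where the diamond automorphism `d`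
  upstairs reduces to `dia'` downstairs and `W = Fr⁻¹ * dia'`.
Hypotheses are exactly the five of `PhiOneTwo21.sp_of_phi_div` (`hI`, `hFr`, `hES`, `h3`) plus the
diamond compatibilities; the instance layer (helper54) plugs `reductionPic0AlongG`, `frobSemi`,
`es_div_final`, `red_injective_of_CLBarG`, and the operators of G-HECKE.
-/
import Mathlib
import Fermat.Prelude.Def_AlgebraicCurve_BaseChangeGalois
import Fermat.Prelude.Def_ModularCurve_ArithmeticGalois
import Fermat.Prelude.Def_EllipticCurve_FrobeniusTrace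
import Fermat.Agent.DS.Geo.EsRelDia

set_option autoImplicit false
set_option linter.unusedSectionVars false

noncomputable section

open AlgebraicCurve ModularCurve

namespace Fermat.Agent.DS.G.ES.TOP.PhiCore

/-! ### reduction of divisor classes along a map of places -/

section PlaceMap

variable {K F k Fk : Type*} [Field K] [Field F] [Algebra K F] [Field k] [Field Fk] [Algebra k Fk]

/-- a map of places preserving degrees and principal divisors. -/
structure PlaceMap (r : Place K F → Place k Fk) : Prop where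
  deg : ∀ P, (r P).deg = P.deg
  principal : ∀ D ∈ Divisor.principal (K := K) (F := F),
    Finsupp.mapDomain r D ∈ Divisor.principal (K := k) (F := Fk)

variable (r : Place K F → Place k Fk)

theorem degree_mapDomain (hdeg : ∀ P, (r P).deg = P.deg) (D : Divisor K F) :
    Divisor.degree (Finsupp.mapDomain r D) = Divisor.degree D := by
  induction D using Finsupp.induction with
  | zero => simp
  | single_add P n D _ _ ih =>
    rw [Finsupp.mapDomain_add, map_add, map_add, ih, Finsupp.mapDomain_single,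
      Divisor.degree_single, Divisor.degree_single, hdeg]

/-- `r_*` on divisors of degree zero. -/
def redDegZero (hdeg : ∀ P, (r P).deg = P.deg) :
    Divisor.degZero (K := K) (F := F) →+ Divisor.degZero (K := k) (F := Fk) :=
  ((Finsupp.mapDomain.addMonoidHom r).domRestrict _).codRestrict _ fun D => by
    have hD := D.2
    rw [Divisor.mem_degZero] at hD ⊢
    show Divisor.degree (Finsupp.mapDomain r (D : Divisor K F)) = 0
    rw [degree_mapDomain r hdeg, hD]

@[simp]
theorem coe_redDegZero (hdeg : ∀ P, (r P).deg = P.deg) (D : Divisor.degZero (K := K) (F := F)) :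
    (redDegZero r hdeg D : Divisor k Fk) = Finsupp.mapDomain r (D : Divisor K F) := rfl

/-- `r_*` on divisor classes of degree zero. -/
def redPic0 (h : PlaceMap r) : Pic0 K F →+ Pic0 k Fk :=
  QuotientAddGroup.map _ _ (redDegZero r h.deg) (by
    rintro ⟨D, hD0⟩ hD
    simp only [AddSubgroup.mem_addSubgroupOf] at hD ⊢
    exact h.principal D hD)

theorem redPic0_mk (h : PlaceMap r) (D : Divisor.degZero (K := K) (F := F)) :
    redPic0 r h (Pic0.mk D) = Pic0.mk (redDegZero r h.deg D) := rfl

/-- if `r (g • P) = h • r P` for all places `P`, then `r_* (g • D) = h • r_* D` on divisors. -/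
theorem mapDomain_smul (g : SemilinearAut K F) (h : SemilinearAut k Fk)
    (hgh : ∀ P, r (g • P) = h • r P) (D : Divisor K F) :
    Finsupp.mapDomain r (g • D) = h • Finsupp.mapDomain r D := by
  rw [SemilinearAut.divisor_smul_def, SemilinearAut.divisor_smul_def, ← Finsupp.mapDomain_comp,
    ← Finsupp.mapDomain_comp]
  congr 1
  funext P
  exact hgh P

/-- **equivariance of the reduction.** -/
theorem redPic0_smul (hr : PlaceMap r) (g : SemilinearAut K F) (h : SemilinearAut k Fk)
    (hgh : ∀ P, r (g • P) = h • r P) (x : Pic0 K F) :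
    redPic0 r hr (g • x) = h • redPic0 r hr x := by
  obtain ⟨D, rfl⟩ := Pic0.mk_surjective x
  rw [SemilinearAut.pic0_smul_mk, redPic0_mk, redPic0_mk, SemilinearAut.pic0_smul_mk]
  congr 1
  apply Subtype.ext
  rw [coe_redDegZero, SemilinearAut.coe_degZeroSMulHom, SemilinearAut.coe_degZeroSMulHom,
    coe_redDegZero]
  exact mapDomain_smul r g h hgh _

/-- the case `h = 1`. -/
theorem redPic0_smul_of_fixed (hr : PlaceMap r) (g : SemilinearAut K F)
    (hg : ∀ P, r (g • P) = r P) (x : Pic0 K F) :
    redPic0 r hr (g • x) = redPic0 r hr x := by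
  have := redPic0_smul r hr g 1 (fun P => by rw [hg P, one_smul]) x
  rwa [one_smul] at this

/-- **(ES) on `Pic⁰`** from the divisor identity (ES-div), with a pair `(Fr, W)`. -/
theorem redPic0_corr (hr : PlaceMap r) (T : Pic0 K F →+ Pic0 K F)
    (TD : Divisor.degZero (K := K) (F := F) →+ Divisor.degZero (K := K) (F := F))
    (hT : ∀ D, T (Pic0.mk D) = Pic0.mk (TD D))
    (Fr W : SemilinearAut k Fk) (l : ℕ)
    (hES : ∀ D : Divisor.degZero (K := K) (F := F),
      Finsupp.mapDomain r ((TD D : Divisor.degZero (K := K) (F := F)) : Divisor K F) =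
        Finsupp.mapDomain (fun Q => Fr • Q) (Finsupp.mapDomain r (D : Divisor K F)) +
          (l : ℤ) • Finsupp.mapDomain (fun Q => W • Q) (Finsupp.mapDomain r (D : Divisor K F)))
    (z : Pic0 K F) :
    redPic0 r hr (T z) = Fr • redPic0 r hr z + l • (W • redPic0 r hr z) := by
  obtain ⟨D, rfl⟩ := Pic0.mk_surjective z
  rw [hT, redPic0_mk, redPic0_mk, SemilinearAut.pic0_smul_mk, SemilinearAut.pic0_smul_mk]
  have key : redDegZero r hr.deg (TD D) =
      SemilinearAut.degZeroSMulHom Fr (redDegZero r hr.deg D) +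
        l • SemilinearAut.degZeroSMulHom W (redDegZero r hr.deg D) := by
    apply Subtype.ext
    rw [coe_redDegZero, AddSubgroup.coe_add, AddSubgroup.coe_nsmul,
      SemilinearAut.coe_degZeroSMulHom, SemilinearAut.coe_degZeroSMulHom, coe_redDegZero,
      SemilinearAut.divisor_smul_def, SemilinearAut.divisor_smul_def,
      ← Nat.cast_smul_eq_nsmul ℤ]
    exact hES D
  rw [key]
  show QuotientAddGroup.mk' _ _ = QuotientAddGroup.mk' _ _ + l • QuotientAddGroup.mk' _ _
  rw [map_add, map_nsmul]

end PlaceMap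

/-! ### the Galois module `Pic⁰(ℚ̄ ⊗ F₀)[m]` at a good prime -/

section Galois

open Fermat.Agent.DS.Geo.EsRelDia

local notation "Qb" => AlgebraicClosure ℚ
local notation "GQ" => (AlgebraicClosure ℚ ≃ₐ[ℚ] AlgebraicClosure ℚ)

variable (F₀ : IntermediateField ℚ (LaurentSeries ℚ))
variable {k Fk : Type*} [Field k] [Field Fk] [Algebra k Fk]
variable (r : Place Qb (laurentBaseChange Qb F₀) → Place k Fk) (hr : PlaceMap r)

/-- equivariance of the reduction for the arithmetic Galois action. -/
theorem redPic0_galois_smul (σ : GQ) (h : SemilinearAut k Fk)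
    (hgh : ∀ P, r (arithmeticGalois F₀ σ • P) = h • r P)
    (x : Pic0 Qb (laurentBaseChange Qb F₀)) :
    redPic0 r hr (σ • x) = h • redPic0 r hr x := by
  rw [galois_smul_pic0_def]
  exact redPic0_smul r hr _ h hgh x

/-- **(Φ1)**: the reduction is invariant under inertia, from `r (τ P) = r P`. -/
theorem redPic0_inertia (A : ValuationSubring Qb)
    (hI : ∀ τ ∈ A.inertiaSubgroupIn ℚ, ∀ P, r (arithmeticGalois F₀ τ • P) = r P)
    {τ : GQ} (hτ : τ ∈ A.inertiaSubgroupIn ℚ) (x : Pic0 Qb (laurentBaseChange Qb F₀)) :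
    redPic0 r hr (τ • x) = redPic0 r hr x := by
  rw [galois_smul_pic0_def]
  exact redPic0_smul_of_fixed r hr _ (hI τ hτ) x

/-- **inertia acts trivially** on the `m`-torsion on which the reduction is injective. -/
theorem inertia_smul_eq_core (A : ValuationSubring Qb)
    (hI : ∀ τ ∈ A.inertiaSubgroupIn ℚ, ∀ P, r (arithmeticGalois F₀ τ • P) = r P)
    {m : ℕ} (h3 : ∀ x : Pic0 Qb (laurentBaseChange Qb F₀), m • x = 0 → redPic0 r hr x = 0 → x = 0)
    {x : Pic0 Qb (laurentBaseChange Qb F₀)} (hx : m • x = 0)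
    {τ : GQ} (hτ : τ ∈ A.inertiaSubgroupIn ℚ) : τ • x = x :=
  smul_eq_of_injOn_torsion (redPic0 r hr) m h3 τ x hx (redPic0_inertia F₀ r hr A hI hτ x)

/-- **the Eichler--Shimura relation with diamond** on the `m`-torsion on which the reduction is
injective; `Dia` is any additive endomorphism upstairs reducing to `dia'` and commuting with `G_ℚ`;
downstairs `red ∘ T = Fr • red + p • (Fr⁻¹ * dia') • red`. -/
theorem frobenius_relation_core (A : ValuationSubring Qb) {p : ℕ}
    (Fr dia' : SemilinearAut k Fk)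
    (hFr : ∀ σ : GQ, A.IsFrobeniusAt σ p → ∀ P, r (arithmeticGalois F₀ σ • P) = Fr • r P)
    (T Dia : Pic0 Qb (laurentBaseChange Qb F₀) →+ Pic0 Qb (laurentBaseChange Qb F₀))
    (hT : ∀ y, redPic0 r hr (T y) =
      Fr • redPic0 r hr y + p • ((Fr⁻¹ * dia') • redPic0 r hr y))
    (hDia : ∀ y, redPic0 r hr (Dia y) = dia' • redPic0 r hr y)
    (hDiaσ : ∀ (σ : GQ) (x : Pic0 Qb (laurentBaseChange Qb F₀)), Dia (σ • x) = σ • Dia x)
    {m : ℕ} (h3 : ∀ x : Pic0 Qb (laurentBaseChange Qb F₀), m • x = 0 → redPic0 r hr x = 0 → x = 0)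
    {x : Pic0 Qb (laurentBaseChange Qb F₀)} (hx : m • x = 0)
    {σ : GQ} (hσ : A.IsFrobeniusAt σ p) :
    σ • σ • x - T (σ • x) + p • Dia x = 0 := by
  refine frobenius_relation_dia (redPic0 r hr) m p h3 T Dia σ (fun z => Fr • z)
    (fun z => Fr⁻¹ • z) (fun z => inv_smul_smul Fr z) (fun y => ?_)
    (fun y => redPic0_galois_smul F₀ r hr σ Fr (hFr σ hσ) y) (hDiaσ σ) x hx
  rw [hT, hDia, mul_smul, natCast_zsmul]

/-- variant: the diamond upstairs is a semilinear automorphism `d` with `r (d • P) = dia' • r P`. -/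
theorem frobenius_relation_core' (A : ValuationSubring Qb) {p : ℕ}
    (Fr dia' : SemilinearAut k Fk)
    (hFr : ∀ σ : GQ, A.IsFrobeniusAt σ p → ∀ P, r (arithmeticGalois F₀ σ • P) = Fr • r P)
    (T : Pic0 Qb (laurentBaseChange Qb F₀) →+ Pic0 Qb (laurentBaseChange Qb F₀))
    (hT : ∀ y, redPic0 r hr (T y) =
      Fr • redPic0 r hr y + p • ((Fr⁻¹ * dia') • redPic0 r hr y))
    (d : SemilinearAut Qb (laurentBaseChange Qb F₀)) (hd : ∀ P, r (d • P) = dia' • r P)
    (hdσ : ∀ (σ : GQ) (x : Pic0 Qb (laurentBaseChange Qb F₀)), d • (σ • x) = σ • (d • x))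
    {m : ℕ} (h3 : ∀ x : Pic0 Qb (laurentBaseChange Qb F₀), m • x = 0 → redPic0 r hr x = 0 → x = 0)
    {x : Pic0 Qb (laurentBaseChange Qb F₀)} (hx : m • x = 0)
    {σ : GQ} (hσ : A.IsFrobeniusAt σ p) :
    σ • σ • x - T (σ • x) + p • (d • x) = 0 :=
  frobenius_relation_core F₀ r hr A Fr dia' hFr T
    (DistribSMul.toAddMonoidHom (Pic0 Qb (laurentBaseChange Qb F₀)) d) hT
    (fun y => redPic0_smul r hr d dia' hd y) hdσ h3 hx hσ

end Galois

end Fermat.Agent.DS.G.ES.TOP.PhiCore
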